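import Mathlib

/-!
# S18, block F (descent to a number field), part F2

A valuation subring `R ≠ ⊤` of a number field is a discrete valuation ring (it is the
localisation of the ring of integers at the contraction of its maximal ideal).
Restriction of a valuation subring along a subfield.
-/

set_option autoImplicit false

open IsDedekindDomain NumberField

namespace Fermat.Agent.S18.Descent

section NumberFieldDVR

variable {L : Type*} [Field L] [NumberField L] (R : ValuationSubring L)

omit [NumberField L] in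
theorem ringOfIntegers_mem (x : 𝓞 L) : (x : L) ∈ R := by
  have hx : IsIntegral ℤ (x : L) := RingOfIntegers.isIntegral_coe x
  have hx' : IsIntegral R (x : L) := hx.tower_top
  obtain ⟨y, hy⟩ := IsIntegrallyClosed.isIntegral_iff.mp hx'
  rw [← hy]
  exact y.2

/-- The inclusion `𝓞 L → R`. -/
def intIncl : 𝓞 L →+* R where
  toFun x := ⟨(x : L), ringOfIntegers_mem R x⟩
  map_one' := by ext; simp
  map_mul' x y := by ext; simp
  map_zero' := by ext; simp
  map_add' x y := by ext; simp

omit [NumberField L] in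
@[simp] theorem coe_intIncl (x : 𝓞 L) : ((intIncl R x : R) : L) = (x : L) := rfl

/-- The centre of `R` on `𝓞 L`. -/
def centre : Ideal (𝓞 L) := (IsLocalRing.maximalIdeal R).comap (intIncl R)

instance : (centre R).IsPrime := by
  unfold centre; infer_instance

theorem centre_ne_bot (hR : R ≠ ⊤) : centre R ≠ ⊥ := by
  have : ∃ x : L, x ∉ R := by
    by_contra h
    push Not at h
    exact hR (eq_top_iff.mpr fun x _ => h x)
  obtain ⟨x, hx⟩ := this
  have hx0 : x ≠ 0 := fun h => hx (h ▸ zero_mem R)
  have hxinv : x⁻¹ ∈ R := (R.mem_or_inv_mem x).resolve_left hx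
  set y : R := ⟨x⁻¹, hxinv⟩ with hy
  have hym : y ∈ IsLocalRing.maximalIdeal R := by
    rw [IsLocalRing.mem_maximalIdeal, mem_nonunits_iff]
    intro hu
    obtain ⟨u, hu⟩ := hu
    have h1 : ((u⁻¹ : Rˣ) : R) * y = 1 := by rw [← hu]; simp
    have h2 : (((u⁻¹ : Rˣ) : R) : L) * x⁻¹ = 1 := by
      have := congrArg (fun r : R => (r : L)) h1
      simpa [hy] using this
    have h3 : (((u⁻¹ : Rˣ) : R) : L) = x := by
      field_simp at h2
      exact h2
    exact hx (h3 ▸ ((u⁻¹ : Rˣ) : R).2)
  obtain ⟨a, b, hb, hab⟩ := IsFractionRing.div_surjective (A := 𝓞 L) x⁻¹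
  have hb0 : (algebraMap (𝓞 L) L b) ≠ 0 := by
    intro h
    exact nonZeroDivisors.ne_zero hb ((map_eq_zero_iff _ (IsFractionRing.injective (𝓞 L) L)).mp h)
  have ha : algebraMap (𝓞 L) L a = x⁻¹ * algebraMap (𝓞 L) L b := by
    rw [← hab]; field_simp
  have ha0 : a ≠ 0 := by
    intro h
    rw [h, map_zero] at ha
    exact (mul_ne_zero (inv_ne_zero hx0) hb0) ha.symm
  intro hbot
  have hmem : a ∈ centre R := by
    unfold centre
    rw [Ideal.mem_comap]
    have hab' : intIncl R a = y * intIncl R b := by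
      ext
      simpa [hy] using ha
    rw [hab']
    exact Ideal.mul_mem_right _ _ hym
  rw [hbot, Ideal.mem_bot] at hmem
  exact ha0 hmem

/-- The height-one prime of `𝓞 L` attached to `R ≠ ⊤`. -/
def centreSpec (hR : R ≠ ⊤) : HeightOneSpectrum (𝓞 L) :=
  ⟨centre R, inferInstance, centre_ne_bot R hR⟩

open scoped algebraMap in
theorem valuationSubringAtPrime_le (hR : R ≠ ⊤) :
    HeightOneSpectrum.valuationSubringAtPrime L (centreSpec R hR) ≤ R := by
  rintro x ⟨a, s, hs, rfl⟩
  have ha : ((a : 𝓞 L) : L) ∈ R := ringOfIntegers_mem R a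
  have hsu : IsUnit (intIncl R s) := by
    by_contra hnu
    apply hs
    show s ∈ centre R
    unfold centre
    rw [Ideal.mem_comap, IsLocalRing.mem_maximalIdeal, mem_nonunits_iff]
    exact hnu
  obtain ⟨u, hu⟩ := hsu
  have hsinv : ((s : 𝓞 L) : L)⁻¹ ∈ R := by
    have h1 : ((u⁻¹ : Rˣ) : R) * intIncl R s = 1 := by rw [← hu]; simp
    have h2 : (((u⁻¹ : Rˣ) : R) : L) * ((s : 𝓞 L) : L) = 1 := by
      have := congrArg (fun r : R => (r : L)) h1
      exact this
    have h3 : ((s : 𝓞 L) : L)⁻¹ = (((u⁻¹ : Rˣ) : R) : L) := by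
      rw [eq_comm, ← mul_eq_one_iff_eq_inv₀]
      · exact h2
      · intro h0
        rw [h0, mul_zero] at h2
        exact zero_ne_one h2
    rw [h3]
    exact ((u⁻¹ : Rˣ) : R).2
  exact R.mul_mem _ _ ha hsinv

theorem eq_valuationSubringAtPrime (hR : R ≠ ⊤) :
    HeightOneSpectrum.valuationSubringAtPrime L (centreSpec R hR) = R :=
  ValuationSubring.eq_of_le_of_ne_top _ (valuationSubringAtPrime_le R hR) hR

/-- **A valuation subring `≠ ⊤` of a number field is a DVR.** -/
theorem isDiscreteValuationRing_of_ne_top (hR : R ≠ ⊤) : IsDiscreteValuationRing R := by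
  have h := eq_valuationSubringAtPrime R hR
  have : IsDiscreteValuationRing
      (HeightOneSpectrum.valuationSubringAtPrime L (centreSpec R hR)) :=
    IsLocalization.AtPrime.isDiscreteValuationRing_of_dedekind_domain (A := 𝓞 L)
      (P := (centreSpec R hR).asIdeal) (centreSpec R hR).ne_bot _
  rw [h] at this
  exact this

end NumberFieldDVR

end Fermat.Agent.S18.Descent
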