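import Mathlib
import Fermat.Agent.S18.Descent.NumberFieldDVR

/-!
# S18, block F, part F2': restriction of a valuation subring to a subfield

`restrict A L := A.comap (algebraMap L K)`, the local inclusion `restrict A L → A`, the induced
map on residue fields, and: for a number field `L` the restriction is a DVR as soon as some
nonzero element of `L` is a nonunit of `A`.
-/

set_option autoImplicit false

namespace Fermat.Agent.S18.Descent

section Restrict

variable {K : Type*} [Field K] (A : ValuationSubring K) (L : Type*) [Field L] [Algebra L K]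

/-- Restriction of a valuation subring to a subfield. -/
abbrev restrict : ValuationSubring L := A.comap (algebraMap L K)

variable {L} in
theorem mem_restrict {x : L} : x ∈ restrict A L ↔ algebraMap L K x ∈ A := Iff.rfl

/-- The inclusion `A ∩ L → A`. -/
def restrictIncl : restrict A L →+* A where
  toFun x := ⟨algebraMap L K x, x.2⟩
  map_one' := by ext; simp
  map_mul' x y := by ext; simp
  map_zero' := by ext; simp
  map_add' x y := by ext; simp

@[simp] theorem coe_restrictIncl (x : restrict A L) :
    ((restrictIncl A L x : A) : K) = algebraMap L K (x : L) := rfl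

theorem restrictIncl_injective : Function.Injective (restrictIncl A L) := by
  intro x y h
  have := congrArg (fun a : A => (a : K)) h
  simp only [coe_restrictIncl] at this
  exact Subtype.ext ((algebraMap L K).injective this)

instance : IsLocalHom (restrictIncl A L) where
  map_nonunit x hx := by
    obtain ⟨u, hu⟩ := hx
    have hx0 : (x : L) ≠ 0 := by
      intro h0
      have : ((u : A) : K) = 0 := by rw [hu, coe_restrictIncl, h0, map_zero]
      have hu0 : (u : A) = 0 := Subtype.ext this
      exact u.ne_zero hu0
    have hinv : (x : L)⁻¹ ∈ restrict A L := by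
      rw [mem_restrict, map_inv₀]
      have h1 : (((u⁻¹ : Aˣ) : A) : K) * algebraMap L K (x : L) = 1 := by
        have h2 : ((u⁻¹ : Aˣ) : A) * restrictIncl A L x = 1 := by rw [← hu]; simp
        exact congrArg (fun a : A => (a : K)) h2
      have h3 : (algebraMap L K (x : L))⁻¹ = (((u⁻¹ : Aˣ) : A) : K) := by
        rw [eq_comm, ← mul_eq_one_iff_eq_inv₀]
        · exact h1
        · exact (map_ne_zero _).mpr hx0
      rw [h3]
      exact ((u⁻¹ : Aˣ) : A).2
    refine ⟨⟨x, ⟨(x : L)⁻¹, hinv⟩, ?_, ?_⟩, rfl⟩
    · ext; simp [hx0]
    · ext; simp [hx0]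

/-- The induced map on residue fields. -/
noncomputable def resIncl : IsLocalRing.ResidueField (restrict A L) →+* IsLocalRing.ResidueField A :=
  IsLocalRing.ResidueField.map (restrictIncl A L)

theorem resIncl_residue (x : restrict A L) :
    resIncl A L (IsLocalRing.residue _ x) = IsLocalRing.residue A (restrictIncl A L x) :=
  IsLocalRing.ResidueField.map_residue _ x

theorem resIncl_injective : Function.Injective (resIncl A L) := (resIncl A L).injective

/-- Every residue class of `A` represented by an element of `L` comes from the small residue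
field. -/
theorem exists_resIncl_eq {a : A} {a₁ : L} (h : algebraMap L K a₁ = (a : K)) :
    ∃ c₁ : IsLocalRing.ResidueField (restrict A L), resIncl A L c₁ = IsLocalRing.residue A a := by
  have hm : a₁ ∈ restrict A L := by rw [mem_restrict, h]; exact a.2
  refine ⟨IsLocalRing.residue _ ⟨a₁, hm⟩, ?_⟩
  rw [resIncl_residue]
  congr 1
  exact Subtype.ext h

theorem restrict_ne_top {x : L} (hx0 : x ≠ 0) (hx : algebraMap L K x ∈ A.nonunits) :
    restrict A L ≠ ⊤ := by
  intro htop
  have h1 : x⁻¹ ∈ restrict A L := by rw [htop]; trivial
  rw [mem_restrict, map_inv₀] at h1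
  rw [ValuationSubring.mem_nonunits_iff_exists_mem_maximalIdeal] at hx
  obtain ⟨hxA, hxm⟩ := hx
  rw [IsLocalRing.mem_maximalIdeal, mem_nonunits_iff] at hxm
  apply hxm
  refine ⟨⟨⟨_, hxA⟩, ⟨_, h1⟩, ?_, ?_⟩, rfl⟩
  · ext; simp [hx0]
  · ext; simp [hx0]

/-- **The restriction of `A` to a number field is a DVR** (given a nonzero nonunit in `L`). -/
theorem isDiscreteValuationRing_restrict [NumberField L] {x : L} (hx0 : x ≠ 0)
    (hx : algebraMap L K x ∈ A.nonunits) : IsDiscreteValuationRing (restrict A L) :=
  isDiscreteValuationRing_of_ne_top _ (restrict_ne_top A L hx0 hx)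

end Restrict

end Fermat.Agent.S18.Descent
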