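import Mathlib
import Fermat.Prelude.Def_ModularCurve_X0ModL

/-!
# S18, block F (descent to a number field), part F0

Generic finite-generation statements for subfields of Laurent series generated by constants
and a set of series: every element only needs finitely many constants.
-/

set_option autoImplicit false

open HahnSeries ModularCurve

namespace Fermat.Agent.S18.Descent

section Generic

variable {k : Type*} [Field k]

/-- Subfield of `k((q))` generated by the constants from `k₁ ⊆ k` and a set `S`. -/
noncomputable def genOver (k₁ : Subfield k) (S : Set (LaurentSeries k)) : Subfield (LaurentSeries k) :=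
  Subfield.closure ((algebraMap k (LaurentSeries k)) '' (k₁ : Set k) ∪ S)

theorem genOver_mono {k₁ k₂ : Subfield k} (h : k₁ ≤ k₂) (S : Set (LaurentSeries k)) :
    genOver k₁ S ≤ genOver k₂ S :=
  Subfield.closure_mono (Set.union_subset_union_left _ (Set.image_mono h))

theorem genOver_top (S : Set (LaurentSeries k)) :
    genOver ⊤ S = Subfield.closure (Set.range (algebraMap k (LaurentSeries k)) ∪ S) := by
  rw [genOver, Subfield.coe_top, Set.image_univ]

theorem subset_genOver (k₁ : Subfield k) (S : Set (LaurentSeries k)) : S ⊆ genOver k₁ S :=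
  fun _ hx => Subfield.subset_closure (Or.inr hx)

theorem algebraMap_mem_genOver {k₁ : Subfield k} (S : Set (LaurentSeries k)) {c : k}
    (hc : c ∈ k₁) : algebraMap k (LaurentSeries k) c ∈ genOver k₁ S :=
  Subfield.subset_closure (Or.inl ⟨c, hc, rfl⟩)

/-- **Finite generation of the constants.** -/
theorem exists_finset_mem_genOver {S : Set (LaurentSeries k)} {x : LaurentSeries k}
    (hx : x ∈ Subfield.closure (Set.range (algebraMap k (LaurentSeries k)) ∪ S)) :
    ∃ T : Finset k, x ∈ genOver (Subfield.closure (T : Set k)) S := by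
  classical
  induction hx using Subfield.closure_induction with
  | mem y hy =>
    rcases hy with ⟨c, rfl⟩ | hy
    · exact ⟨{c}, algebraMap_mem_genOver S (Subfield.subset_closure (by simp))⟩
    · exact ⟨∅, subset_genOver _ S hy⟩
  | one => exact ⟨∅, one_mem _⟩
  | add x y _ _ hx hy =>
    obtain ⟨T₁, h₁⟩ := hx
    obtain ⟨T₂, h₂⟩ := hy
    exact ⟨T₁ ∪ T₂,
      add_mem (genOver_mono (Subfield.closure_mono (by simp)) S h₁)
        (genOver_mono (Subfield.closure_mono (by simp)) S h₂)⟩
  | neg x _ hx =>
    obtain ⟨T, h⟩ := hx
    exact ⟨T, neg_mem h⟩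
  | inv x _ hx =>
    obtain ⟨T, h⟩ := hx
    exact ⟨T, inv_mem h⟩
  | mul x y _ _ hx hy =>
    obtain ⟨T₁, h₁⟩ := hx
    obtain ⟨T₂, h₂⟩ := hy
    exact ⟨T₁ ∪ T₂,
      mul_mem (genOver_mono (Subfield.closure_mono (by simp)) S h₁)
        (genOver_mono (Subfield.closure_mono (by simp)) S h₂)⟩

end Generic

section Image

variable {k₁ k : Type*} [Field k₁] [Field k] (i : k₁ →+* k)

theorem coeffMap_algebraMap' (c : k₁) :
    coeffMap i (algebraMap k₁ (LaurentSeries k₁) c) = algebraMap k (LaurentSeries k) (i c) := by
  rw [algebraMap_laurentSeries_eq_single, algebraMap_laurentSeries_eq_single, coeffMap_single]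

theorem coeffMap_injective : Function.Injective (coeffMap i) := by
  intro x y h
  ext n
  have := congrArg (fun f => f.coeff n) h
  exact i.injective (by simpa using this)

/-- The image under a coefficient extension of a subfield generated by all constants and `S₁`
is the subfield generated by the constants from the range and the image of `S₁`. -/
theorem map_closure_eq_genOver (S₁ : Set (LaurentSeries k₁)) :
    (Subfield.closure (Set.range (algebraMap k₁ (LaurentSeries k₁)) ∪ S₁)).map (coeffMap i) =
      genOver i.fieldRange (coeffMap i '' S₁) := by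
  rw [RingHom.map_field_closure, genOver, Set.image_union]
  congr 2
  ext x
  constructor
  · rintro ⟨_, ⟨c, rfl⟩, rfl⟩
    exact ⟨i c, ⟨c, rfl⟩, (coeffMap_algebraMap' i c).symm⟩
  · rintro ⟨_, ⟨c, rfl⟩, rfl⟩
    exact ⟨_, ⟨c, rfl⟩, coeffMap_algebraMap' i c⟩

end Image

end Fermat.Agent.S18.Descent
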