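import Mathlib
import Fermat.Prelude.Def_ModularCurve_ReductionModL
import Fermat.Agent.S18.Descent.SubfieldGen
import Fermat.Agent.S18.Descent.Restrict

/-!
# S18, block F (descent to a number field), parts F1 and F3

Every element of `F_{N,K}` (`K = ℚ̄`) and of `F_{N,k}` (`k` the residue field of `A`) is defined
over `L₁` resp. the residue field of `A ∩ L₁` for every subfield `L₁` containing a suitable
finite set of elements of `K`.
-/

set_option autoImplicit false

open HahnSeries ModularCurve

namespace Fermat.Agent.S18.Descent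

section Lift

variable {L : Type*} [Field L] (S : ValuationSubring L)

/-- Build a series over a valuation subring from a series with coefficients in it. -/
def liftSeries (x : LaurentSeries L) (h : ∀ n, x.coeff n ∈ S) : LaurentSeries S where
  coeff n := ⟨x.coeff n, h n⟩
  isPWO_support' := x.isPWO_support.mono (by
    intro n hn
    rw [Function.mem_support] at hn
    rw [HahnSeries.mem_support]
    intro h0
    exact hn (Subtype.ext h0))

@[simp] theorem liftSeries_coeff (x : LaurentSeries L) (h : ∀ n, x.coeff n ∈ S) (n : ℤ) :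
    ((liftSeries S x h).coeff n : L) = x.coeff n := rfl

theorem coeffMap_subtype_liftSeries (x : LaurentSeries L) (h : ∀ n, x.coeff n ∈ S) :
    coeffMap S.subtype (liftSeries S x h) = x := by
  ext n
  rfl

end Lift

section CharZero

variable {K : Type*} [Field K] [Algebra ℚ K]
variable (F₀ : IntermediateField ℚ (LaurentSeries ℚ))

theorem fieldRange_algebraMap (L₁ : IntermediateField ℚ K) :
    (algebraMap L₁ K).fieldRange = L₁.toSubfield := by
  ext x
  constructor
  · rintro ⟨y, rfl⟩
    exact y.2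
  · intro hx
    exact ⟨⟨x, hx⟩, rfl⟩

theorem coeffMap_comp_coeffEmb (L₁ : IntermediateField ℚ K) (x : LaurentSeries ℚ) :
    coeffMap (algebraMap L₁ K) (coeffEmb L₁ x) = coeffEmb K x := by
  rw [coeffEmb, coeffEmb, coeffMap_coeffMap]
  exact coeffMap_congr (RingHom.ext fun c => by simp) x

/-- Image of the small base change in the big one. -/
theorem map_laurentBaseChange (L₁ : IntermediateField ℚ K) :
    (laurentBaseChange L₁ F₀).toSubfield.map (coeffMap (algebraMap L₁ K)) =
      genOver L₁.toSubfield (⇑(coeffEmb K) '' (F₀ : Set (LaurentSeries ℚ))) := by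
  have h := map_closure_eq_genOver (algebraMap L₁ K)
    (⇑(coeffEmb L₁) '' (F₀ : Set (LaurentSeries ℚ)))
  rw [fieldRange_algebraMap, Set.image_image] at h
  have himg : (fun x => coeffMap (algebraMap L₁ K) (coeffEmb L₁ x)) '' (F₀ : Set (LaurentSeries ℚ))
      = ⇑(coeffEmb K) '' (F₀ : Set (LaurentSeries ℚ)) := by
    apply Set.image_congr
    intro x _
    exact coeffMap_comp_coeffEmb L₁ x
  rw [himg] at h
  exact h

theorem coeffMap_mem_laurentBaseChange_up (L₁ : IntermediateField ℚ K) {x : LaurentSeries L₁}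
    (hx : x ∈ laurentBaseChange L₁ F₀) :
    coeffMap (algebraMap L₁ K) x ∈ laurentBaseChange K F₀ := by
  have h1 : coeffMap (algebraMap L₁ K) x ∈
      (laurentBaseChange L₁ F₀).toSubfield.map (coeffMap (algebraMap L₁ K)) := ⟨x, hx, rfl⟩
  rw [map_laurentBaseChange] at h1
  have h2 := genOver_mono (le_top : L₁.toSubfield ≤ ⊤)
    (⇑(coeffEmb K) '' (F₀ : Set (LaurentSeries ℚ))) h1
  rw [genOver_top] at h2
  exact mem_laurentBaseChange_iff.mpr h2

/-- **F1 (characteristic zero side).** -/
theorem exists_finset_rat {Y : LaurentSeries K} (hY : Y ∈ laurentBaseChange K F₀) :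
    ∃ T : Finset K, ∀ L₁ : IntermediateField ℚ K, (↑T : Set K) ⊆ (L₁ : Set K) →
      ∃ Y₁ ∈ laurentBaseChange L₁ F₀, coeffMap (algebraMap L₁ K) Y₁ = Y := by
  rw [mem_laurentBaseChange_iff] at hY
  obtain ⟨T, hT⟩ := exists_finset_mem_genOver hY
  refine ⟨T, fun L₁ hL => ?_⟩
  have hle : Subfield.closure (T : Set K) ≤ L₁.toSubfield := Subfield.closure_le.mpr hL
  have h1 := genOver_mono hle _ hT
  rw [← map_laurentBaseChange] at h1
  obtain ⟨Y₁, hY₁, rfl⟩ := h1
  exact ⟨Y₁, hY₁, rfl⟩

end CharZero

section Residue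

variable {K : Type*} [Field K] (A : ValuationSubring K) (N : ℕ)

local notation "kA" => IsLocalRing.ResidueField A

theorem image_divisorExpansionsC {k₁ k : Type*} [Field k₁] [Field k] (i : k₁ →+* k) :
    ⇑(coeffMap i) '' divisorExpansionsC k₁ N = divisorExpansionsC k N := by
  ext x
  constructor
  · rintro ⟨_, ⟨d, hd, hdN, rfl⟩, rfl⟩
    haveI := hd
    exact ⟨d, hd, hdN, by rw [coeffMap_qExpand, coeffMap_jqModC]⟩
  · rintro ⟨d, hd, hdN, rfl⟩
    haveI := hd
    exact ⟨_, ⟨d, hd, hdN, rfl⟩, by rw [coeffMap_qExpand, coeffMap_jqModC]⟩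

/-- Image of the small residual function field in the big one. -/
theorem map_fullC {k₁ k : Type*} [Field k₁] [Field k] (i : k₁ →+* k) :
    (modularFunctionFieldFullC k₁ N).toSubfield.map (coeffMap i) =
      genOver i.fieldRange (divisorExpansionsC k N) := by
  have h := map_closure_eq_genOver i (divisorExpansionsC k₁ N)
  rw [image_divisorExpansionsC] at h
  exact h

theorem coeffMap_mem_fullC_up {k₁ k : Type*} [Field k₁] [Field k] (i : k₁ →+* k)
    {x : LaurentSeries k₁} (hx : x ∈ modularFunctionFieldFullC k₁ N) :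
    coeffMap i x ∈ modularFunctionFieldFullC k N := by
  have h1 : coeffMap i x ∈ (modularFunctionFieldFullC k₁ N).toSubfield.map (coeffMap i) :=
    ⟨x, hx, rfl⟩
  rw [map_fullC] at h1
  have h2 := genOver_mono (le_top : i.fieldRange ≤ ⊤) (divisorExpansionsC k N) h1
  rw [genOver_top] at h2
  exact h2

variable [Algebra ℚ K]

/-- Every residue class is defined over the residue field of `A ∩ L₁` for `L₁` large. -/
theorem exists_finset_res_const (c : kA) :
    ∃ T : Finset K, ∀ L₁ : IntermediateField ℚ K, (↑T : Set K) ⊆ (L₁ : Set K) →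
      ∃ c₁ : IsLocalRing.ResidueField (restrict A L₁), resIncl A L₁ c₁ = c := by
  obtain ⟨a, rfl⟩ := IsLocalRing.residue_surjective c
  refine ⟨{(a : K)}, fun L₁ hL => ?_⟩
  have ha : (a : K) ∈ L₁ := hL (by simp)
  exact exists_resIncl_eq A L₁ (a := a) (a₁ := ⟨(a : K), ha⟩) rfl

/-- **F1 (residue side).** -/
theorem exists_finset_res {g : LaurentSeries kA} (hg : g ∈ modularFunctionFieldFullC kA N) :
    ∃ T : Finset K, ∀ L₁ : IntermediateField ℚ K, (↑T : Set K) ⊆ (L₁ : Set K) →
      ∃ g₁ ∈ modularFunctionFieldFullC (IsLocalRing.ResidueField (restrict A L₁)) N,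
        coeffMap (resIncl A L₁) g₁ = g := by
  classical
  have hg' : g ∈ Subfield.closure
      (Set.range (algebraMap kA (LaurentSeries kA)) ∪ divisorExpansionsC kA N) := hg
  obtain ⟨T', hT'⟩ := exists_finset_mem_genOver hg'
  choose a ha using fun c : kA => IsLocalRing.residue_surjective (R := A) c
  refine ⟨T'.image fun c => ((a c : A) : K), fun L₁ hL => ?_⟩
  have hle : Subfield.closure (T' : Set kA) ≤ (resIncl A L₁).fieldRange := by
    rw [Subfield.closure_le]
    intro c hc
    have hmem : ((a c : A) : K) ∈ L₁ := hL (by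
      simp only [Finset.coe_image, Set.mem_image, Finset.mem_coe]
      exact ⟨c, hc, rfl⟩)
    obtain ⟨c₁, hc₁⟩ := exists_resIncl_eq A L₁ (a := a c) (a₁ := ⟨((a c : A) : K), hmem⟩) rfl
    exact ⟨c₁, by rw [hc₁, ha]⟩
  have h1 := genOver_mono hle _ hT'
  rw [← map_fullC] at h1
  obtain ⟨g₁, hg₁, rfl⟩ := h1
  exact ⟨g₁, hg₁, rfl⟩

end Residue

end Fermat.Agent.S18.Descent
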