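import Mathlib
import Fermat.Agent.S18.Trans.Star
import Fermat.Agent.S18.Descent.RatData

/-!
# S18, block F (descent to a number field), parts F3 and F4

`DVRData A L₁ N m y₁ y₂ c g` : the data of `Trans.Star` defined over the discrete valuation ring
`A ∩ L₁` and its residue field.  `star_of_dvr` : to prove `Trans.Star A N m` one may, after
seeing the data, name a finite set `T ⊆ ℚ̄` and assume that everything is defined over `A ∩ L₁`
for a number field `L₁ ⊇ T`.
-/

set_option autoImplicit false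

open HahnSeries ModularCurve AlgebraicCurve

namespace Fermat.Agent.S18.Descent

set_option synthInstance.maxHeartbeats 400000

local notation "Kb" => AlgebraicClosure ℚ

/-- The data of `Trans.Star` over the restriction of `A` to a subfield `L₁`. -/
structure DVRData (A : ValuationSubring Kb) (L₁ : IntermediateField ℚ Kb) (N m : ℕ)
    (y₁ y₂ : LaurentSeries A) (c : IsLocalRing.ResidueField A)
    (g : LaurentSeries (IsLocalRing.ResidueField A)) where
  /-- numerator over `A ∩ L₁` -/
  z₁ : LaurentSeries (restrict A L₁)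
  /-- denominator over `A ∩ L₁` -/
  z₂ : LaurentSeries (restrict A L₁)
  incl₁ : coeffMap (restrictIncl A L₁) z₁ = y₁
  incl₂ : coeffMap (restrictIncl A L₁) z₂ = y₂
  mem₁ : coeffMap (restrict A L₁).subtype z₁ ∈ laurentBaseChange L₁ (modularFunctionFieldFull N)
  mem₂ : coeffMap (restrict A L₁).subtype z₂ ∈ laurentBaseChange L₁ (modularFunctionFieldFull N)
  rmem₁ : coeffMap (IsLocalRing.residue (restrict A L₁)) z₁ ∈
    modularFunctionFieldFullC (IsLocalRing.ResidueField (restrict A L₁)) N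
  rmem₂ : coeffMap (IsLocalRing.residue (restrict A L₁)) z₂ ∈
    modularFunctionFieldFullC (IsLocalRing.ResidueField (restrict A L₁)) N
  /-- the residual constant -/
  c₁ : IsLocalRing.ResidueField (restrict A L₁)
  /-- the residual `m`-th root -/
  g₁ : LaurentSeries (IsLocalRing.ResidueField (restrict A L₁))
  hc : resIncl A L₁ c₁ = c
  hg : coeffMap (resIncl A L₁) g₁ = g
  g₁_mem : g₁ ∈ modularFunctionFieldFullC (IsLocalRing.ResidueField (restrict A L₁)) N
  hres : coeffMap (IsLocalRing.residue (restrict A L₁)) z₁ =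
    HahnSeries.C c₁ * g₁ ^ m * coeffMap (IsLocalRing.residue (restrict A L₁)) z₂

section Build

variable (A : ValuationSubring Kb) (N m : ℕ)

theorem residue_comp_restrictIncl (L₁ : IntermediateField ℚ Kb) :
    (IsLocalRing.residue A).comp (restrictIncl A L₁) =
      (resIncl A L₁).comp (IsLocalRing.residue (restrict A L₁)) := by
  ext x
  exact (resIncl_residue A L₁ x).symm

theorem subtype_comp_restrictIncl (L₁ : IntermediateField ℚ Kb) :
    A.subtype.comp (restrictIncl A L₁) = (algebraMap L₁ Kb).comp (restrict A L₁).subtype := by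
  ext x
  rfl

/-- one series: over `L₁ ⊇ T` it comes from `A ∩ L₁`, with both memberships. -/
theorem exists_finset_series (y : LaurentSeries A)
    (h : coeffMap A.subtype y ∈ modularFunctionFieldBar N)
    (hr : coeffMap (IsLocalRing.residue A) y ∈
      modularFunctionFieldFullC (IsLocalRing.ResidueField A) N) :
    ∃ T : Finset Kb, ∀ L₁ : IntermediateField ℚ Kb, (↑T : Set Kb) ⊆ (L₁ : Set Kb) →
      ∃ z : LaurentSeries (restrict A L₁), coeffMap (restrictIncl A L₁) z = y ∧
        coeffMap (restrict A L₁).subtype z ∈ laurentBaseChange L₁ (modularFunctionFieldFull N) ∧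
        coeffMap (IsLocalRing.residue (restrict A L₁)) z ∈
          modularFunctionFieldFullC (IsLocalRing.ResidueField (restrict A L₁)) N := by
  classical
  obtain ⟨T₁, hT₁⟩ := exists_finset_rat (modularFunctionFieldFull N) h
  obtain ⟨T₂, hT₂⟩ := exists_finset_res A N hr
  refine ⟨T₁ ∪ T₂, fun L₁ hL => ?_⟩
  have hL₁ : (↑T₁ : Set Kb) ⊆ (L₁ : Set Kb) := fun x hx => hL (by simp [Finset.mem_coe.mp hx])
  have hL₂ : (↑T₂ : Set Kb) ⊆ (L₁ : Set Kb) := fun x hx => hL (by simp [Finset.mem_coe.mp hx])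
  obtain ⟨Y₁, hY₁, hY⟩ := hT₁ L₁ hL₁
  obtain ⟨g₁, hg₁, hg⟩ := hT₂ L₁ hL₂
  have hcoeff : ∀ n, Y₁.coeff n ∈ restrict A L₁ := by
    intro n
    rw [mem_restrict]
    have := congrArg (fun s => s.coeff n) hY
    simp only [coeffMap_coeff] at this
    rw [this]
    exact (y.coeff n).2
  refine ⟨liftSeries _ Y₁ hcoeff, ?_, ?_, ?_⟩
  · ext n
    have := congrArg (fun s => s.coeff n) hY
    simp only [coeffMap_coeff] at this
    exact this
  · rw [coeffMap_subtype_liftSeries]
    exact hY₁
  · have h1 : coeffMap (resIncl A L₁)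
        (coeffMap (IsLocalRing.residue (restrict A L₁)) (liftSeries _ Y₁ hcoeff)) =
        coeffMap (resIncl A L₁) g₁ := by
      rw [hg, coeffMap_coeffMap, ← residue_comp_restrictIncl, ← coeffMap_coeffMap]
      congr 1
      ext n
      have := congrArg (fun s => s.coeff n) hY
      simp only [coeffMap_coeff] at this
      exact this
    rw [coeffMap_injective _ h1]
    exact hg₁


theorem coeffMap_C {R S : Type*} [CommRing R] [CommRing S] (f : R →+* S) (c : R) :
    coeffMap f (HahnSeries.C c : LaurentSeries R) = HahnSeries.C (f c) := by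
  rw [HahnSeries.C_apply, HahnSeries.C_apply, coeffMap_single]

theorem red_eq (L₁ : IntermediateField ℚ Kb) (z : LaurentSeries (restrict A L₁)) :
    coeffMap (resIncl A L₁) (coeffMap (IsLocalRing.residue (restrict A L₁)) z) =
      coeffMap (IsLocalRing.residue A) (coeffMap (restrictIncl A L₁) z) := by
  rw [coeffMap_coeffMap, coeffMap_coeffMap, residue_comp_restrictIncl]

/-- **F4: descent of `Trans.Star` to number fields.** To prove `Trans.Star A N m` one may,
after seeing the data, name a finite set `T` of elements of `ℚ̄` and assume that all the data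
are defined over `A ∩ L₁` (and its residue field) for a number field `L₁ ⊇ T`. -/
theorem star_of_dvr
    (H : ∀ (y₁ y₂ : LaurentSeries A)
      (h₁ : coeffMap A.subtype y₁ ∈ modularFunctionFieldBar N)
      (h₂ : coeffMap A.subtype y₂ ∈ modularFunctionFieldBar N),
      coeffMap (IsLocalRing.residue A) y₁ ∈
          modularFunctionFieldFullC (IsLocalRing.ResidueField A) N →
      coeffMap (IsLocalRing.residue A) y₂ ∈
          modularFunctionFieldFullC (IsLocalRing.ResidueField A) N →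
      coeffMap (IsLocalRing.residue A) y₁ ≠ 0 →
      coeffMap (IsLocalRing.residue A) y₂ ≠ 0 →
      (∀ P : Place Kb (modularFunctionFieldBar N),
        (m : ℤ) ∣ P.ord (⟨coeffMap A.subtype y₁, h₁⟩ : modularFunctionFieldBar N)
          - P.ord (⟨coeffMap A.subtype y₂, h₂⟩ : modularFunctionFieldBar N)) →
      ∀ (c : IsLocalRing.ResidueField A) (g : LaurentSeries (IsLocalRing.ResidueField A)),
        g ∈ modularFunctionFieldFullC (IsLocalRing.ResidueField A) N →
        coeffMap (IsLocalRing.residue A) y₁ =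
          HahnSeries.C c * g ^ m * coeffMap (IsLocalRing.residue A) y₂ →
      ∃ T : Finset Kb, ∀ (L₁ : IntermediateField ℚ Kb) [FiniteDimensional ℚ L₁],
        (↑T : Set Kb) ⊆ (L₁ : Set Kb) → DVRData A L₁ N m y₁ y₂ c g →
        ∃ (c' : Kb) (w : LaurentSeries Kb), w ∈ modularFunctionFieldBar N ∧
          coeffMap A.subtype y₁ = HahnSeries.C c' * w ^ m * coeffMap A.subtype y₂) :
    Trans.Star A N m := by
  classical
  intro y₁ y₂ h₁ h₂ hr₁ hr₂ hne₁ hne₂ hdiv hcg
  obtain ⟨c, g, hg, hcg⟩ := hcg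
  obtain ⟨T, hT⟩ := H y₁ y₂ h₁ h₂ hr₁ hr₂ hne₁ hne₂ hdiv c g hg hcg
  obtain ⟨T₁, hT₁⟩ := exists_finset_series A N y₁ h₁ hr₁
  obtain ⟨T₂, hT₂⟩ := exists_finset_series A N y₂ h₂ hr₂
  obtain ⟨T₃, hT₃⟩ := exists_finset_res_const A c
  obtain ⟨T₄, hT₄⟩ := exists_finset_res A N hg
  set Tall : Finset Kb := T ∪ T₁ ∪ T₂ ∪ T₃ ∪ T₄ with hTall
  set L₁ : IntermediateField ℚ Kb := IntermediateField.adjoin ℚ (Tall : Set Kb) with hL₁
  have halg : Algebra.IsAlgebraic ℚ Kb := AlgebraicClosure.isAlgebraic ℚ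
  have : FiniteDimensional ℚ L₁ :=
    IntermediateField.finiteDimensional_adjoin fun x _ =>
      (Algebra.IsAlgebraic.isAlgebraic x).isIntegral
  have hsub : (Tall : Set Kb) ⊆ (L₁ : Set Kb) := IntermediateField.subset_adjoin _ _
  have hs : ∀ T' : Finset Kb, T' ⊆ Tall → (↑T' : Set Kb) ⊆ (L₁ : Set Kb) :=
    fun T' h x hx => hsub (Finset.mem_coe.mpr (h (Finset.mem_coe.mp hx)))
  have e0 : T ⊆ Tall := by intro x hx; simp [hTall, hx]
  have e1 : T₁ ⊆ Tall := by intro x hx; simp [hTall, hx]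
  have e2 : T₂ ⊆ Tall := by intro x hx; simp [hTall, hx]
  have e3 : T₃ ⊆ Tall := by intro x hx; simp [hTall, hx]
  have e4 : T₄ ⊆ Tall := by intro x hx; simp [hTall, hx]
  obtain ⟨z₁, hz₁, hm₁, hrm₁⟩ := hT₁ L₁ (hs _ e1)
  obtain ⟨z₂, hz₂, hm₂, hrm₂⟩ := hT₂ L₁ (hs _ e2)
  obtain ⟨c₁, hc₁⟩ := hT₃ L₁ (hs _ e3)
  obtain ⟨g₁, hg₁m, hg₁⟩ := hT₄ L₁ (hs _ e4)
  refine hT L₁ (hs _ e0)
    { z₁ := z₁, z₂ := z₂, incl₁ := hz₁, incl₂ := hz₂, mem₁ := hm₁, mem₂ := hm₂,
      rmem₁ := hrm₁, rmem₂ := hrm₂, c₁ := c₁, g₁ := g₁, hc := hc₁, hg := hg₁,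
      g₁_mem := hg₁m, hres := ?_ }
  apply coeffMap_injective (resIncl A L₁)
  rw [red_eq, hz₁, hcg, map_mul, map_mul, map_pow, red_eq, hz₂, coeffMap_C, hc₁, hg₁]

/-- Convenience: over a number field `L₁` the ring `A ∩ L₁` is a discrete valuation ring. -/
theorem isDiscreteValuationRing_restrict_of_liesOver {ℓ : ℕ} (hℓ : ℓ ≠ 0)
    (hA : (ℓ : Kb) ∈ A.nonunits) (L₁ : IntermediateField ℚ Kb) [FiniteDimensional ℚ L₁] :
    IsDiscreteValuationRing (restrict A L₁) := by
  have : NumberField L₁ := ⟨⟩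
  refine isDiscreteValuationRing_restrict A L₁ (x := (ℓ : L₁)) (by exact_mod_cast hℓ) ?_
  have : algebraMap L₁ Kb (ℓ : L₁) = (ℓ : Kb) := by simp
  rw [this]
  exact hA

end Build

end Fermat.Agent.S18.Descent
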