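import Mathlib
import Fermat.Prelude.Def_ModularCurve_ReductionModL
import Fermat.Prelude.Def_AlgebraicCurve_DivisorPushPull
import Fermat.Agent.S18.Trans.Star
import Fermat.Agent.S18.KummerDescent

/-!
# S18, block 1: descent of the Kummer form `(*)` from level `M` to a level `N` with `F_N ≤ F_M`

`star_descent` : `Star A M m → Star A N m`, given (hypothesis-style, to be discharged by block D)
valuation subrings `VN`, `VM` of `F_N`, `F_M` ("Gauss valuations") with
* `VM` is the unique valuation subring of `F_M` above `VN`,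
* a residue map `res : VN →+* k((q))` with kernel the maximal ideal, which is coefficientwise
  reduction on integral series and whose range contains `F_{N,k}`.
The proof is `KummerDescent.mem_range_of_pow_eq` (helper22) plus `Place.restrict` of the Prelude.
-/

set_option autoImplicit false

open HahnSeries AlgebraicCurve ModularCurve

namespace Fermat.Agent.S18.Descent.StarMul

set_option synthInstance.maxHeartbeats 400000

local notation "Kb" => AlgebraicClosure ℚ

/-- `m`-th roots exist in the residue field of a valuation subring of an algebraically closed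
field. -/
theorem exists_pow_eq_residue (A : ValuationSubring Kb) {m : ℕ} (hm : m ≠ 0)
    (c : IsLocalRing.ResidueField A) : ∃ c₁ : IsLocalRing.ResidueField A, c₁ ^ m = c := by
  obtain ⟨a, rfl⟩ := IsLocalRing.residue_surjective c
  obtain ⟨b, hb⟩ := IsAlgClosed.exists_pow_nat_eq (a : Kb) (Nat.pos_of_ne_zero hm)
  have hbA : b ∈ A := by
    rw [← A.valuation_le_one_iff]
    have h1 : A.valuation b ^ m ≤ 1 := by
      rw [← map_pow, hb, A.valuation_le_one_iff]
      exact a.2
    exact (pow_le_one_iff_of_nonneg zero_le hm).mp h1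
  refine ⟨IsLocalRing.residue A ⟨b, hbA⟩, ?_⟩
  rw [← map_pow]
  congr 1
  exact Subtype.ext hb

section Val

variable {F : Type*} [Field F] (V : ValuationSubring F)

theorem val_eq_one_iff {x : F} (hx : x ≠ 0) : V.valuation x = 1 ↔ x ∈ V ∧ x⁻¹ ∈ V := by
  constructor
  · intro h
    refine ⟨(V.valuation_le_one_iff x).mp h.le, (V.valuation_le_one_iff _).mp ?_⟩
    rw [map_inv₀, h, inv_one]
  · rintro ⟨h1, h2⟩
    have h1' := (V.valuation_le_one_iff x).mpr h1
    have h2' := (V.valuation_le_one_iff _).mpr h2
    rw [map_inv₀] at h2'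
    have hpos : 0 < V.valuation x := zero_lt_iff.mpr (V.valuation.ne_zero_iff.mpr hx)
    exact le_antisymm h1' ((inv_le_one₀ hpos).mp h2')

theorem val_lt_one_iff {x : F} (hx : x ≠ 0) : V.valuation x < 1 ↔ x⁻¹ ∉ V := by
  rw [← V.valuation_le_one_iff, map_inv₀, not_le,
    one_lt_inv₀ (zero_lt_iff.mpr (V.valuation.ne_zero_iff.mpr hx))]

end Val

section Transfer

variable {F F' : Type*} [Field F] [Field F'] (φ : F →+* F')
  (V : ValuationSubring F) (V' : ValuationSubring F') (hc : V'.comap φ = V)

include hc

theorem val_eq_one_transfer {x : F} (h : V.valuation x = 1) : V'.valuation (φ x) = 1 := by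
  have hx : x ≠ 0 := by
    rintro rfl
    rw [map_zero] at h
    exact zero_ne_one h
  have hx' : φ x ≠ 0 := (map_ne_zero φ).mpr hx
  rw [val_eq_one_iff V hx] at h
  rw [val_eq_one_iff V' hx']
  subst hc
  rw [ValuationSubring.mem_comap, ValuationSubring.mem_comap, map_inv₀] at h
  exact h

theorem val_lt_one_transfer {x : F} (h : V.valuation x < 1) : V'.valuation (φ x) < 1 := by
  by_cases hx : x = 0
  · subst hx; simp
  have hx' : φ x ≠ 0 := (map_ne_zero φ).mpr hx
  rw [val_lt_one_iff V hx] at h
  rw [val_lt_one_iff V' hx']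
  subst hc
  rwa [ValuationSubring.mem_comap, map_inv₀] at h

end Transfer

theorem C_eq_algebraMap {L : Type*} [Field L] (c : L) :
    (HahnSeries.C c : LaurentSeries L) = algebraMap L (LaurentSeries L) c := by
  rw [algebraMap_laurentSeries_eq_single]
  rfl

variable {A : ValuationSubring Kb}

theorem coeffMap_subtype_ne_zero' {y : LaurentSeries A}
    (hy : coeffMap (IsLocalRing.residue A) y ≠ 0) : coeffMap A.subtype y ≠ 0 := by
  intro h0
  apply hy
  have hy0 : y = 0 := by
    ext k
    have := congrArg (fun s : LaurentSeries Kb => s.coeff k) h0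
    simp only [coeffMap_coeff, HahnSeries.coeff_zero] at this
    rw [HahnSeries.coeff_zero]
    simpa using this
  rw [hy0, map_zero]

/-- **Block 1, hypothesis style.** -/
theorem star_descent {N M m : ℕ}
    (hle : modularFunctionFieldBar N ≤ modularFunctionFieldBar M)
    (hlek : modularFunctionFieldFullC (IsLocalRing.ResidueField A) N ≤
      modularFunctionFieldFullC (IsLocalRing.ResidueField A) M)
    (hintegral : (IntermediateField.inclusion hle).toRingHom.IsIntegral)
    (VN : ValuationSubring (modularFunctionFieldBar N))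
    (VM : ValuationSubring (modularFunctionFieldBar M))
    (hcomap : VM.comap (IntermediateField.inclusion hle).toRingHom = VN)
    (huniq : ∀ O'' : ValuationSubring (modularFunctionFieldBar M),
      O''.comap (IntermediateField.inclusion hle).toRingHom = VN → O'' = VM)
    (res : VN →+* LaurentSeries (IsLocalRing.ResidueField A))
    (hker : ∀ x : VN, res x = 0 ↔ VN.valuation (x : modularFunctionFieldBar N) < 1)
    (hintmem : ∀ (y : LaurentSeries A) (h : coeffMap A.subtype y ∈ modularFunctionFieldBar N),
      (⟨coeffMap A.subtype y, h⟩ : modularFunctionFieldBar N) ∈ VN)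
    (hresint : ∀ (y : LaurentSeries A) (h : coeffMap A.subtype y ∈ modularFunctionFieldBar N),
      res ⟨⟨coeffMap A.subtype y, h⟩, hintmem y h⟩ = coeffMap (IsLocalRing.residue A) y)
    (hrange : ∀ g ∈ modularFunctionFieldFullC (IsLocalRing.ResidueField A) N,
      ∃ x : VN, res x = g)
    (hmk : ((m : ℕ) : IsLocalRing.ResidueField A) ≠ 0)
    (hstar : Trans.Star A M m) : Trans.Star A N m := by
  classical
  have hm0 : m ≠ 0 := by
    rintro rfl
    exact hmk Nat.cast_zero
  intro y₁ y₂ h₁ h₂ hk₁ hk₂ hne₁ hne₂ hord hpow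
  obtain ⟨c, g, hg, hred⟩ := hpow
  -- the algebra structure `F_N → F_M`
  let algNM : Algebra (modularFunctionFieldBar N) (modularFunctionFieldBar M) :=
    (IntermediateField.inclusion hle).toRingHom.toAlgebra
  have : IsScalarTower Kb (modularFunctionFieldBar N) (modularFunctionFieldBar M) :=
    IsScalarTower.of_algebraMap_eq fun a => ((IntermediateField.inclusion hle).commutes a).symm
  have : Algebra.IsIntegral (modularFunctionFieldBar N) (modularFunctionFieldBar M) :=
    ⟨fun x => hintegral x⟩
  have hcoe : ∀ x : modularFunctionFieldBar N,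
      ((algebraMap (modularFunctionFieldBar N) (modularFunctionFieldBar M) x :
        modularFunctionFieldBar M) : LaurentSeries Kb) = (x : LaurentSeries Kb) := by
    intro x
    rw [RingHom.algebraMap_toAlgebra]
    exact IntermediateField.coe_inclusion hle x
  have halg : ∀ (x : LaurentSeries Kb) (hx : x ∈ modularFunctionFieldBar N),
      algebraMap (modularFunctionFieldBar N) (modularFunctionFieldBar M) ⟨x, hx⟩ = ⟨x, hle hx⟩ :=
    fun x hx => Subtype.ext (hcoe ⟨x, hx⟩)
  -- Step 1: apply the level-`M` statement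
  have hordM : ∀ P : Place Kb (modularFunctionFieldBar M),
      (m : ℤ) ∣ P.ord (⟨coeffMap A.subtype y₁, hle h₁⟩ : modularFunctionFieldBar M)
        - P.ord (⟨coeffMap A.subtype y₂, hle h₂⟩ : modularFunctionFieldBar M) := by
    intro P
    have e1 := P.ord_restrict (F := modularFunctionFieldBar N) ⟨coeffMap A.subtype y₁, h₁⟩
    have e2 := P.ord_restrict (F := modularFunctionFieldBar N) ⟨coeffMap A.subtype y₂, h₂⟩
    rw [halg] at e1 e2
    rw [e1, e2, ← mul_sub]
    exact Dvd.dvd.mul_left (hord (P.restrict (modularFunctionFieldBar N))) _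
  obtain ⟨c', w, hw, hEq⟩ := hstar y₁ y₂ (hle h₁) (hle h₂) (hlek hk₁) (hlek hk₂) hne₁ hne₂ hordM
    ⟨c, g, hlek hg, hred⟩
  -- Step 2: normalise
  have hY₁ : coeffMap A.subtype y₁ ≠ 0 := coeffMap_subtype_ne_zero' hne₁
  have hY₂ : coeffMap A.subtype y₂ ≠ 0 := coeffMap_subtype_ne_zero' hne₂
  have hc'0 : c' ≠ 0 := by
    rintro rfl
    rw [map_zero, zero_mul, zero_mul] at hEq
    exact hY₁ hEq
  obtain ⟨c'', hc''⟩ := IsAlgClosed.exists_pow_nat_eq c' (Nat.pos_of_ne_zero hm0)
  set Y₁ : modularFunctionFieldBar N := ⟨coeffMap A.subtype y₁, h₁⟩ with hY₁def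
  set Y₂ : modularFunctionFieldBar N := ⟨coeffMap A.subtype y₂, h₂⟩ with hY₂def
  have hY₁0 : Y₁ ≠ 0 := fun h => hY₁ (congrArg Subtype.val h)
  have hY₂0 : Y₂ ≠ 0 := fun h => hY₂ (congrArg Subtype.val h)
  set f : modularFunctionFieldBar N := Y₁ / Y₂ with hf
  have hCmem : (HahnSeries.C c'' : LaurentSeries Kb) ∈ modularFunctionFieldBar M := by
    rw [C_eq_algebraMap]
    exact (modularFunctionFieldBar M).algebraMap_mem c''
  set W₁ : modularFunctionFieldBar M := ⟨HahnSeries.C c'' * w, mul_mem hCmem hw⟩ with hW₁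
  have hW₁pow : W₁ ^ m = algebraMap (modularFunctionFieldBar N) (modularFunctionFieldBar M) f := by
    have hfY : f * Y₂ = Y₁ := div_mul_cancel₀ _ hY₂0
    have hY₂M : algebraMap (modularFunctionFieldBar N) (modularFunctionFieldBar M) Y₂ ≠ 0 :=
      (map_ne_zero _).mpr hY₂0
    apply mul_right_cancel₀ hY₂M
    rw [← map_mul, hfY]
    apply Subtype.ext
    rw [halg, halg]
    push_cast
    rw [hW₁]
    simp only [mul_pow, ← map_pow, hc'']
    exact hEq.symm
  -- Step 3: the hypotheses of the Kummer descent
  -- units of `VN`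
  have hunit : ∀ (y : LaurentSeries A) (h : coeffMap A.subtype y ∈ modularFunctionFieldBar N),
      coeffMap (IsLocalRing.residue A) y ≠ 0 →
      VN.valuation (⟨coeffMap A.subtype y, h⟩ : modularFunctionFieldBar N) = 1 := by
    intro y h hne
    have hle1 := (VN.valuation_le_one_iff _).mpr (hintmem y h)
    refine le_antisymm hle1 (not_lt.mp fun hlt => hne ?_)
    rw [← hresint y h]
    exact (hker _).mpr hlt
  have hvY₁ : VN.valuation Y₁ = 1 := hunit y₁ h₁ hne₁
  have hvY₂ : VN.valuation Y₂ = 1 := hunit y₂ h₂ hne₂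
  have hvf : VN.valuation f = 1 := by rw [hf, map_div₀, hvY₁, hvY₂, div_one]
  -- the natural number `m` is a unit
  have hvm : VM.valuation ((m : ℕ) : modularFunctionFieldBar M) = 1 := by
    have hmem : coeffMap A.subtype ((m : ℕ) : LaurentSeries A) ∈ modularFunctionFieldBar N := by
      rw [map_natCast]
      exact natCast_mem _ m
    have hne : coeffMap (IsLocalRing.residue A) ((m : ℕ) : LaurentSeries A) ≠ 0 := by
      rw [map_natCast]
      have : ((m : ℕ) : LaurentSeries (IsLocalRing.ResidueField A)) =
          HahnSeries.C ((m : ℕ) : IsLocalRing.ResidueField A) := (map_natCast _ m).symm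
      rw [this]
      exact fun h => hmk (HahnSeries.C_injective (by rw [h, map_zero]))
    have h1 := hunit _ hmem hne
    have h2 := val_eq_one_transfer (IntermediateField.inclusion hle).toRingHom VN VM hcomap h1
    have h3 : (IntermediateField.inclusion hle).toRingHom
        (⟨coeffMap A.subtype ((m : ℕ) : LaurentSeries A), hmem⟩ : modularFunctionFieldBar N)
        = ((m : ℕ) : modularFunctionFieldBar M) := by
      apply Subtype.ext
      show coeffMap A.subtype ((m : ℕ) : LaurentSeries A) = _
      rw [map_natCast]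
      push_cast
      rfl
    rwa [h3] at h2
  -- a lift of an `m`-th root of the reduction
  obtain ⟨c₁, hc₁⟩ := exists_pow_eq_residue A hm0 c
  have hg' : HahnSeries.C c₁ * g ∈ modularFunctionFieldFullC (IsLocalRing.ResidueField A) N := by
    refine mul_mem ?_ hg
    rw [C_eq_algebraMap]
    exact (modularFunctionFieldFullC (IsLocalRing.ResidueField A) N).algebraMap_mem c₁
  obtain ⟨x, hx⟩ := hrange _ hg'
  have hfmem : f ∈ VN := (VN.valuation_le_one_iff f).mp hvf.le
  have hresf : res ⟨f, hfmem⟩ = HahnSeries.C c * g ^ m := by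
    have hfY : (⟨f, hfmem⟩ : VN) * ⟨Y₂, hintmem y₂ h₂⟩ = ⟨Y₁, hintmem y₁ h₁⟩ :=
      Subtype.ext (div_mul_cancel₀ _ hY₂0)
    have h1 := congrArg res hfY
    rw [map_mul, hresint y₂ h₂, hresint y₁ h₁, hred] at h1
    exact mul_right_cancel₀ hne₂ h1
  have hvfg : VN.valuation (f - (x : modularFunctionFieldBar N) ^ m) < 1 := by
    have h1 : res (⟨f, hfmem⟩ - x ^ m) = 0 := by
      rw [map_sub, map_pow, hresf, hx, mul_pow, ← map_pow, hc₁, sub_self]
    have h2 := (hker _).mp h1
    simpa using h2
  -- Step 4: Kummer descent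
  have : NeZero ((m : ℕ) : Kb) := ⟨Nat.cast_ne_zero.mpr hm0⟩
  obtain ⟨ζ₀, hζ₀⟩ := HasEnoughRootsOfUnity.exists_primitiveRoot Kb m
  have hζ : IsPrimitiveRoot (algebraMap Kb (modularFunctionFieldBar N) ζ₀) m :=
    hζ₀.map_of_injective (algebraMap Kb (modularFunctionFieldBar N)).injective
  have a1 : ∀ O'' : ValuationSubring (modularFunctionFieldBar M),
      O''.comap (algebraMap (modularFunctionFieldBar N) (modularFunctionFieldBar M)) =
        VM.comap (algebraMap (modularFunctionFieldBar N) (modularFunctionFieldBar M)) → O'' = VM :=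
    fun O'' hO'' => huniq O'' (hO''.trans hcomap)
  have a2 : VM.valuation ((m : ℕ) : modularFunctionFieldBar M) = 1 := hvm
  have a3 : VM.valuation (algebraMap (modularFunctionFieldBar N) (modularFunctionFieldBar M) f) = 1 :=
    val_eq_one_transfer (IntermediateField.inclusion hle).toRingHom VN VM hcomap hvf
  have a4 : VM.valuation (algebraMap (modularFunctionFieldBar N) (modularFunctionFieldBar M)
      (f - (x : modularFunctionFieldBar N) ^ m)) < 1 :=
    val_lt_one_transfer (IntermediateField.inclusion hle).toRingHom VN VM hcomap hvfg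
  have a2' : VM.valuation ((m : modularFunctionFieldBar M)) = 1 := a2
  have hmem := KummerDescent.mem_range_of_pow_eq (F := modularFunctionFieldBar N)
    (F' := modularFunctionFieldBar M) VM a1
    (Nat.pos_of_ne_zero hm0) hζ a2' hW₁pow a3 a4
  obtain ⟨w₀, hw₀⟩ := hmem
  have hw₀' : (w₀ : LaurentSeries Kb) = HahnSeries.C c'' * w := by
    rw [← hcoe w₀, hw₀]
  refine ⟨1, (w₀ : LaurentSeries Kb), w₀.2, ?_⟩
  rw [map_one, one_mul, hw₀', mul_pow, ← map_pow, hc'']
  exact hEq

end Fermat.Agent.S18.Descent.StarMul
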