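import Mathlib
import Fermat.Agent.S18.Descent.StarMul
import Fermat.Agent.S18.Gauss.ResidueField
import Fermat.Agent.S18.Trans.LevelUp
import Fermat.Agent.S18.Trans.LiesOver
import Fermat.Agent.S24.FiniteFibres

/-!
# S18, block 1, instantiation: `Star A M m → Star A N m` for `N ∣ M`, `ℓ ∤ M`, `ℓ ∤ m`

`star_of_star_mul_of_isGaussRed` discharges all hypotheses of helper14's `StarMul.star_descent`
from ONE Gauss datum at level `M`: a valuation subring `O'` of `F_M = modularFunctionFieldBar M`
with a reduction map `ρ : O' → k((q))` satisfying helper18's interface `Residue.IsGaussRed`.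
The datum at level `N` is obtained by restriction (`O'.comap`, `ρ ∘ incl`), which is again of
Gauss type; the uniqueness of `O'` over its restriction to `F_N` comes from
`IsGaussRed.eq_of_comap_eq` (uniqueness over `K(J)`) with `[F_M : K(J)] = ψ(M)` (S24, `T0`).
-/

set_option autoImplicit false

open HahnSeries AlgebraicCurve ModularCurve IntermediateField

namespace Fermat.Agent.S18.Descent.StarMulH

open Fermat.Agent.S18.Gauss.Residue Fermat.Agent.S18.Trans

set_option synthInstance.maxHeartbeats 400000
set_option maxHeartbeats 1000000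

local notation "Kb" => AlgebraicClosure ℚ

/-! ### the generators `j(q^d)` over `ℚ̄` -/

theorem coeffEmb_jq : coeffEmb Kb jq = jqModC Kb := by
  rw [← jqModC_rat]
  exact coeffMap_jqModC (algebraMap ℚ Kb)

theorem qExpand_jqModC_mem {M d : ℕ} [NeZero M] [NeZero d] (hd : d ∣ M) :
    qExpand Kb d (jqModC Kb) ∈ modularFunctionFieldBar M := by
  have h := coeffEmb_mem_laurentBaseChange Kb (jqd_mem_full M hd)
  have e : coeffEmb Kb (qExpand ℚ d jq) = qExpand Kb d (jqModC Kb) := by
    rw [← coeffEmb_jq]
    exact coeffMap_qExpand (algebraMap ℚ Kb) d jq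
  rwa [e] at h

theorem jqModC_mem_bar (M : ℕ) [NeZero M] : jqModC Kb ∈ modularFunctionFieldBar M := by
  have h := qExpand_jqModC_mem (M := M) (one_dvd M)
  rwa [qExpand_one_apply] at h

theorem jqNModC_mem_bar (M : ℕ) [NeZero M] : jqNModC Kb M ∈ modularFunctionFieldBar M :=
  qExpand_jqModC_mem (dvd_refl M)

open Fermat.Agent.S24 in
theorem J_eq_Jel (M : ℕ) [NeZero M] :
    PlaceAt.J M = Jel (F := modularFunctionFieldBar M) (jqModC_mem_bar M) := by
  apply Subtype.ext
  show coeffEmb Kb (qExpand ℚ 1 jq) = jqModC Kb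
  rw [qExpand_one_apply, coeffEmb_jq]

open Fermat.Agent.S24 in
theorem finrank_Jel (M : ℕ) [NeZero M] :
    Module.finrank Kb⟮Jel (F := modularFunctionFieldBar M) (jqModC_mem_bar M)⟯
      (modularFunctionFieldBar M) = dedekindPsi M := by
  rw [← J_eq_Jel]
  exact FiniteFibres.T0 M


/-! ### restriction of a Gauss datum to a subfield (generic) -/

section Restrict

variable {K : Type*} [Field K] {A : ValuationSubring K} {k : Type*} [Field k] {π : A →+* k}
  {F F' : IntermediateField K (LaurentSeries K)} (hle : F ≤ F')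
  (O' : ValuationSubring F') (ρ : O' →+* LaurentSeries k)

/-- the inclusion `F → F'` as a ring homomorphism. -/
noncomputable def incl : F →+* F' := (IntermediateField.inclusion hle).toRingHom

theorem coe_incl (x : F) : ((incl hle x : F') : LaurentSeries K) = (x : LaurentSeries K) := rfl

theorem incl_mk (x : LaurentSeries K) (hx : x ∈ F) : incl hle ⟨x, hx⟩ = ⟨x, hle hx⟩ := rfl

/-- the restriction of `O'` to `F`. -/
noncomputable def VN : ValuationSubring F := O'.comap (incl hle)

theorem mem_VN {x : F} : x ∈ VN hle O' ↔ incl hle x ∈ O' := Iff.rfl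

/-- the inclusion `VN → O'`. -/
noncomputable def toO' : VN hle O' →+* O' where
  toFun x := ⟨incl hle (x : F), (mem_VN hle O').mp x.2⟩
  map_one' := Subtype.ext (map_one (incl hle))
  map_mul' _ _ := Subtype.ext (map_mul (incl hle) _ _)
  map_zero' := Subtype.ext (map_zero (incl hle))
  map_add' _ _ := Subtype.ext (map_add (incl hle) _ _)

theorem coe_toO' (x : VN hle O') : (toO' hle O' x : F') = incl hle (x : F) := rfl

/-- the restricted reduction map. -/
noncomputable def resN : VN hle O' →+* LaurentSeries k := ρ.comp (toO' hle O')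

theorem resN_apply (x : VN hle O') : resN hle O' ρ x = ρ (toO' hle O' x) := rfl

variable {hle O' ρ}

theorem resN_eq_zero_iff (hG : IsGaussRed A π F' O' ρ) (x : VN hle O') :
    resN hle O' ρ x = 0 ↔ (VN hle O').valuation (x : F) < 1 := by
  constructor
  · intro h0
    by_contra hlt
    have hle1 := ((VN hle O').valuation_le_one_iff _).mpr x.2
    have h1 : (VN hle O').valuation (x : F) = 1 := le_antisymm hle1 (not_lt.mp hlt)
    have hx0 : (x : F) ≠ 0 := by
      intro h
      rw [h, map_zero] at h1
      exact zero_ne_one h1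
    have hinv : (x : F)⁻¹ ∈ VN hle O' := by
      rw [← ValuationSubring.valuation_le_one_iff, map_inv₀, h1, inv_one]
    have hmul : x * ⟨(x : F)⁻¹, hinv⟩ = 1 := Subtype.ext (mul_inv_cancel₀ hx0)
    have := congrArg (resN hle O' ρ) hmul
    rw [map_mul, h0, zero_mul, map_one] at this
    exact zero_ne_one this
  · intro hlt
    have h1 : O'.valuation ((toO' hle O' x : O') : F') < 1 :=
      StarMul.val_lt_one_transfer (incl hle) (VN hle O') O' rfl hlt
    rw [resN_apply]
    exact hG.map_eq_zero _ h1

theorem mem_VN_of_integral (hG : IsGaussRed A π F' O' ρ)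
    (y : LaurentSeries A) (h : coeffMap A.subtype y ∈ F) :
    (⟨coeffMap A.subtype y, h⟩ : F) ∈ VN hle O' := by
  rw [mem_VN, incl_mk]
  exact hG.mem_of_integral y (hle h)

theorem resN_integral (hG : IsGaussRed A π F' O' ρ)
    (y : LaurentSeries A) (h : coeffMap A.subtype y ∈ F)
    (h' : (⟨coeffMap A.subtype y, h⟩ : F) ∈ VN hle O') :
    resN hle O' ρ ⟨⟨coeffMap A.subtype y, h⟩, h'⟩ = coeffMap π y := by
  rw [resN_apply, ← hG.map_integral y (hle h) (hG.mem_of_integral y (hle h))]
  rfl

/-- the restricted datum is again of Gauss type. -/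
theorem isGaussRed_restrict (hG : IsGaussRed A π F' O' ρ) :
    IsGaussRed A π F (VN hle O') (resN hle O' ρ) where
  mem_of_integral := mem_VN_of_integral hG
  map_integral := resN_integral hG
  map_eq_zero x hx := (resN_eq_zero_iff hG x).mpr hx
  surj := hG.surj

/-- `K(J) ⊆ F'` lies in the image of `F` when `J ∈ F`. -/
theorem exists_incl_eq (hJ : jqModC K ∈ F) (x : K⟮Jel (F := F') (hle hJ)⟯) :
    ∃ x' : F, incl hle x' = (x : F') := by
  have hle' : K⟮Jel (F := F') (hle hJ)⟯ ≤ (IntermediateField.inclusion hle).fieldRange := by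
    rw [adjoin_simple_le_iff]
    exact ⟨⟨jqModC K, hJ⟩, rfl⟩
  obtain ⟨x', hx'⟩ := hle' x.2
  exact ⟨x', hx'⟩

/-- two valuation subrings of `F'` with the same trace on `F ∋ J` have the same trace on
`K(J)`. -/
theorem comap_adjoin_eq (hJ : jqModC K ∈ F) (O'' : ValuationSubring F')
    (h : O''.comap (incl hle) = O'.comap (incl hle)) :
    O''.comap (algebraMap K⟮Jel (F := F') (hle hJ)⟯ F') =
      O'.comap (algebraMap K⟮Jel (F := F') (hle hJ)⟯ F') := by
  ext x
  obtain ⟨x', hx'⟩ := exists_incl_eq (hle := hle) hJ x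
  have e : algebraMap K⟮Jel (F := F') (hle hJ)⟯ F' x = incl hle x' := hx'.symm
  rw [ValuationSubring.mem_comap, ValuationSubring.mem_comap, e, ← ValuationSubring.mem_comap,
    ← ValuationSubring.mem_comap (A := O'), h]

end Restrict

/-! ### the instantiation -/

/-- **Block 1, instantiated on a Gauss datum at level `M`.**  For `N ∣ M`, `ℓ ∤ M`, `ℓ ∤ m`, and
ANY valuation subring `O'` of `F_M` with a reduction map `ρ` of Gauss type (helper18's
`Residue.IsGaussRed`), the Kummer form `(*)` descends from level `M` to level `N`. -/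
theorem star_of_star_mul_of_isGaussRed {N M : ℕ} [NeZero N] [NeZero M] (hNM : N ∣ M)
    {ℓ : ℕ} [Fact ℓ.Prime] (hℓM : ¬ ℓ ∣ M)
    (A : ValuationSubring Kb) (hA : A.LiesOverPrime ℓ) {m : ℕ} (hm : ¬ ℓ ∣ m)
    (O' : ValuationSubring (modularFunctionFieldBar M))
    (ρ : O' →+* LaurentSeries (IsLocalRing.ResidueField A))
    (hG : IsGaussRed A (IsLocalRing.residue A) (modularFunctionFieldBar M) O' ρ)
    (hstar : Trans.Star A M m) : Trans.Star A N m := by
  have : CharP (IsLocalRing.ResidueField A) ℓ := LiesOver.charP_residueField hA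
  have hle : modularFunctionFieldBar N ≤ modularFunctionFieldBar M := LevelUp.bar_le hNM
  have hlek : modularFunctionFieldFullC (IsLocalRing.ResidueField A) N ≤
      modularFunctionFieldFullC (IsLocalRing.ResidueField A) M := full_degeneracyC_le _ hNM
  have hintegral : (IntermediateField.inclusion hle).toRingHom.IsIntegral := by
    let _ := LevelUp.algUp hNM
    have := LevelUp.isAlgebraic_up hNM
    have : Algebra.IsIntegral (modularFunctionFieldBar N) (modularFunctionFieldBar M) :=
      Algebra.IsAlgebraic.isIntegral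
    intro x
    exact Algebra.IsIntegral.isIntegral (R := modularFunctionFieldBar N) x
  have hJN : jqModC Kb ∈ modularFunctionFieldBar N := jqModC_mem_bar N
  have huniq : ∀ O'' : ValuationSubring (modularFunctionFieldBar M),
      O''.comap (IntermediateField.inclusion hle).toRingHom = VN hle O' → O'' = O' := by
    intro O'' hO''
    have h1 := comap_adjoin_eq (hle := hle) (O' := O') hJN O'' hO''
    exact hG.eq_of_comap_eq (hle hJN) (jqNModC_mem_bar M) hℓM (finrank_Jel M) O'' h1
  have hJd : ∀ (d : ℕ) [NeZero d], d ∣ N →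
      qExpand Kb d (jqModC Kb) ∈ modularFunctionFieldBar N :=
    fun d _ hd => qExpand_jqModC_mem hd
  have hGN := isGaussRed_restrict (hle := hle) hG
  have hmk : ((m : ℕ) : IsLocalRing.ResidueField A) ≠ 0 := by
    rw [Ne, CharP.cast_eq_zero_iff (IsLocalRing.ResidueField A) ℓ]
    exact hm
  exact StarMul.star_descent hle hlek hintegral (VN hle O') O' rfl huniq (resN hle O' ρ)
    (resN_eq_zero_iff hG) (mem_VN_of_integral hG)
    (fun y h => resN_integral hG y h _)
    (fun g hg => Gauss.ResidueField.exists_map_eq_of_mem_full hGN hJd hg) hmk hstar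

end Fermat.Agent.S18.Descent.StarMulH
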