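import Mathlib
import Fermat.Agent.S18.Descent.StarMulH
import Fermat.Agent.S18.Gauss.ScalableFull

/-!
# S18, block 1, final form: `Star A M m → Star A N m` for `N ∣ M`, `ℓ ∤ M`, `ℓ ∤ m`

`StarMulH.star_of_star_mul_of_isGaussRed` fed with the Gauss datum of
`Gauss/ScalableFull.lean` (`exists_isGaussRed`) at `L = ℚ̄`, level `M`.
-/

set_option autoImplicit false

open ModularCurve

namespace Fermat.Agent.S18.Descent.StarMulFinal

set_option synthInstance.maxHeartbeats 400000

/-- **Block 1 (unconditional).** -/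
theorem star_of_star_mul {N M : ℕ} [NeZero N] [NeZero M] (hNM : N ∣ M)
    {ℓ : ℕ} [Fact ℓ.Prime] (hℓM : ¬ ℓ ∣ M)
    (A : ValuationSubring (AlgebraicClosure ℚ)) (hA : A.LiesOverPrime ℓ) {m : ℕ} (hm : ¬ ℓ ∣ m)
    (hstar : Trans.Star A M m) : Trans.Star A N m := by
  have : CharP (IsLocalRing.ResidueField A) ℓ := Trans.LiesOver.charP_residueField hA
  obtain ⟨O', ρ, hG⟩ := Gauss.ScalableFull.exists_isGaussRed M A hℓM
  exact StarMulH.star_of_star_mul_of_isGaussRed hNM hℓM A hA hm O' ρ hG hstar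

end Fermat.Agent.S18.Descent.StarMulFinal
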