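import Mathlib
import Fermat.Prelude.Def_ModularCurve_ReductionModL
import Fermat.Prelude.Def_FLTPrelim_Ramification
import Fermat.Agent.S24.FiniteFibres

/-!
# S18, block 1: the level-independent hypotheses of `StarMul.star_descent`

* `bar_le_of_dvd` : `N ∣ M → F_N ≤ F_M` (function fields over `ℚ̄`),
* `isIntegral_inclusion` : `F_M` is integral over `F_N`,
* `natCast_residue_ne_zero` : `(m : k) ≠ 0` when `A` lies over `ℓ` and `ℓ ∤ m`.
-/

set_option autoImplicit false

open HahnSeries AlgebraicCurve ModularCurve IntermediateField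

namespace Fermat.Agent.S18.Descent.StarMulAux

set_option synthInstance.maxHeartbeats 400000

local notation "Kb" => AlgebraicClosure ℚ

theorem laurentBaseChange_mono_of_le {L : Type*} [Field L] [Algebra ℚ L]
    {F₀ F₁ : IntermediateField ℚ (LaurentSeries ℚ)} (h : F₀ ≤ F₁) :
    laurentBaseChange L F₀ ≤ laurentBaseChange L F₁ :=
  IntermediateField.adjoin.mono L _ _ (Set.image_mono h)

theorem bar_le_of_dvd {N M : ℕ} [NeZero N] [NeZero M] (h : N ∣ M) :
    modularFunctionFieldBar N ≤ modularFunctionFieldBar M :=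
  laurentBaseChange_mono_of_le (full_degeneracy_le h)

open Fermat.Agent.S24.BridgeInv Fermat.Agent.S24.PlaceAt in
/-- `F_M` is integral over `F_N`. -/
theorem isIntegral_inclusion {N M : ℕ} [NeZero N] [NeZero M]
    (hle : modularFunctionFieldBar N ≤ modularFunctionFieldBar M) :
    (IntermediateField.inclusion hle).toRingHom.IsIntegral := by
  classical
  intro x
  set φ : FF N →ₐ[Kb] FF M := IntermediateField.inclusion hle with hφ
  have hJ : φ (J N) = J M := Subtype.ext rfl
  have hxint : IsIntegral (Kb⟮J M⟯) x :=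
    haveI := Fermat.Agent.S24.FiniteFibres.finiteDimensional_J M
    Algebra.IsIntegral.isIntegral x
  obtain ⟨p, hpm, hp⟩ := hxint
  have hR : Kb⟮J M⟯ ≤ φ.fieldRange := by
    rw [IntermediateField.adjoin_simple_le_iff]
    exact ⟨J N, hJ⟩
  -- a section of `φ` on `K(J)`
  let e : FF N ≃ₐ[Kb] φ.fieldRange := AlgEquiv.ofInjectiveField φ
  let ψ : Kb⟮J M⟯ →+* FF N :=
    (e.symm : φ.fieldRange →+* FF N).comp (IntermediateField.inclusion hR).toRingHom
  have hψ : ∀ r : Kb⟮J M⟯, φ (ψ r) = (r : FF M) := by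
    intro r
    have h1 : (e (e.symm (IntermediateField.inclusion hR r)) : FF M) =
        ((IntermediateField.inclusion hR r : φ.fieldRange) : FF M) := by
      rw [AlgEquiv.apply_symm_apply]
    have h2 : (e (e.symm (IntermediateField.inclusion hR r)) : FF M) =
        φ (e.symm (IntermediateField.inclusion hR r)) := rfl
    rw [h2] at h1
    exact h1
  refine ⟨p.map ψ, hpm.map ψ, ?_⟩
  rw [Polynomial.eval₂_map]
  have hcomp : (φ : FF N →+* FF M).comp ψ = algebraMap (Kb⟮J M⟯) (FF M) :=
    RingHom.ext fun r => hψ r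
  show Polynomial.eval₂ ((φ : FF N →+* FF M).comp ψ) x p = 0
  rw [hcomp]
  exact hp

/-- `(m : k) ≠ 0` for `ℓ ∤ m` when `A` lies over `ℓ`. -/
theorem natCast_residue_ne_zero {A : ValuationSubring Kb} {ℓ : ℕ} (hℓ : ℓ.Prime)
    (hA : A.LiesOverPrime ℓ) {m : ℕ} (hm : ¬ ℓ ∣ m) :
    ((m : ℕ) : IsLocalRing.ResidueField A) ≠ 0 := by
  have hℓ0 : ((ℓ : ℕ) : IsLocalRing.ResidueField A) = 0 := by
    have hmem : ((ℓ : ℕ) : A) ∈ IsLocalRing.maximalIdeal A := by
      rw [IsLocalRing.mem_maximalIdeal, mem_nonunits_iff]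
      intro hu
      have h1 : (ℓ : Kb) ∈ A.nonunits := hA
      rw [ValuationSubring.mem_nonunits_iff_exists_mem_maximalIdeal] at h1
      obtain ⟨ha, h2⟩ := h1
      rw [IsLocalRing.mem_maximalIdeal, mem_nonunits_iff] at h2
      apply h2
      have : (⟨(ℓ : Kb), ha⟩ : A) = ((ℓ : ℕ) : A) := Subtype.ext (by push_cast; rfl)
      rw [this]
      exact hu
    have := (IsLocalRing.residue_eq_zero_iff _).mpr hmem
    rwa [map_natCast] at this
  have hcop : Nat.Coprime ℓ m := (Nat.Prime.coprime_iff_not_dvd hℓ).mpr hm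
  intro h0
  have hb := Nat.Coprime.isCoprime hcop
  obtain ⟨a, b, hab⟩ := hb
  have := congrArg (fun z : ℤ => (z : IsLocalRing.ResidueField A)) hab
  simp only [Int.cast_add, Int.cast_mul, Int.cast_natCast, Int.cast_one] at this
  rw [hℓ0, h0, mul_zero, mul_zero, add_zero] at this
  exact zero_ne_one this

end Fermat.Agent.S18.Descent.StarMulAux
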