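import Mathlib
import Fermat.Agent.S18.Descent.StarMul
import Fermat.Agent.S18.Descent.StarMulAux
import Fermat.Agent.S18.Gauss.ModularH
import Fermat.Agent.S18.Trans.LiesOver

/-!
# S18, block 1 (instantiated): `Star A M m → Star A N m` for `N ∣ M`, `ℓ ∤ M`

`StarMul.star_descent` with the Gauss valuation subrings `ModularH.gaussVS` at both levels
(`L := ℚ̄`): `VM.comap incl = VN` (`Basic.comap_gaussSubring`), uniqueness of `VM` above `VN`
(`Concrete.eq_of_comap_eq`, since `ℚ̄(J) ⊆ F_N`), the residue map `ModularH.gaussRes` at level `N`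
with range `⊇ F_{N,k}` (`Concrete.exists_map_eq_of_mem_full`).
-/

set_option autoImplicit false

open HahnSeries AlgebraicCurve ModularCurve IntermediateField

namespace Fermat.Agent.S18.Descent.StarMulG

open Fermat.Agent.S18.Gauss Fermat.Agent.S18.Gauss.Basic Fermat.Agent.S18.Gauss.Residue

set_option synthInstance.maxHeartbeats 400000
set_option maxHeartbeats 1000000

local notation "Kb" => AlgebraicClosure ℚ

variable {N M : ℕ} [NeZero N] [NeZero M]

omit [NeZero M] in
/-- the coerced inclusion `F_M → ℚ̄((q))` is the subtype coercion (stated once, used by `rw`, so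
that no definitional unfolding through `RingHom.comp` is ever needed). -/
theorem val_apply (y : ↥(modularFunctionFieldBar M)) :
    ((modularFunctionFieldBar M).val : ↥(modularFunctionFieldBar M) →+* LaurentSeries Kb) y =
      (y : LaurentSeries Kb) := rfl

omit [NeZero N] [NeZero M] in
theorem val_inclusion_apply (hle : modularFunctionFieldBar N ≤ modularFunctionFieldBar M)
    (x : ↥(modularFunctionFieldBar N)) :
    ((modularFunctionFieldBar M).val : ↥(modularFunctionFieldBar M) →+* LaurentSeries Kb)
      ((IntermediateField.inclusion hle).toRingHom x) =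
    ((modularFunctionFieldBar N).val : ↥(modularFunctionFieldBar N) →+* LaurentSeries Kb) x := by
  rw [val_apply, val_apply]
  exact IntermediateField.coe_inclusion hle x

omit [NeZero N] [NeZero M] in
theorem val_comp_inclusion (hle : modularFunctionFieldBar N ≤ modularFunctionFieldBar M) :
    ((modularFunctionFieldBar M).val : ↥(modularFunctionFieldBar M) →+* LaurentSeries Kb).comp
      (IntermediateField.inclusion hle).toRingHom =
    ((modularFunctionFieldBar N).val : ↥(modularFunctionFieldBar N) →+* LaurentSeries Kb) := by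
  refine RingHom.ext fun x => ?_
  rw [RingHom.comp_apply]
  exact val_inclusion_apply hle x

/-- the Gauss valuation of `F_M` restricts to the Gauss valuation of `F_N`. -/
theorem comap_gaussVS {ℓ : ℕ} [Fact ℓ.Prime] (hℓM : ¬ ℓ ∣ M) (hℓN : ¬ ℓ ∣ N)
    (A : ValuationSubring Kb) [CharP (IsLocalRing.ResidueField A) ℓ]
    (hle : modularFunctionFieldBar N ≤ modularFunctionFieldBar M) :
    (ModularH.gaussVS A hℓM).comap (IntermediateField.inclusion hle).toRingHom =
      ModularH.gaussVS A hℓN :=
  comap_gaussSubring (ModularH.scalable A hℓM) (ModularH.scalable A hℓN)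
    (IntermediateField.inclusion hle).toRingHom (val_comp_inclusion hle)

omit [NeZero N] in
/-- uniqueness of a Gauss-type valuation subring of `F_M` above its restriction to `F_N`. -/
theorem eq_of_comap_inclusion_eq
    (hle : modularFunctionFieldBar N ≤ modularFunctionFieldBar M)
    {A : ValuationSubring Kb} {k : Type*} [Field k] {π : A →+* k}
    {O' : ValuationSubring ↥(modularFunctionFieldBar M)} {ρ : O' →+* LaurentSeries k}
    (hG : IsGaussRed A π (modularFunctionFieldBar M) O' ρ)
    {ℓ : ℕ} [Fact ℓ.Prime] [CharP k ℓ] (hℓM : ¬ ℓ ∣ M)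
    (O'' : ValuationSubring ↥(modularFunctionFieldBar M))
    (h : O''.comap (IntermediateField.inclusion hle).toRingHom =
      O'.comap (IntermediateField.inclusion hle).toRingHom) : O'' = O' := by
  apply Concrete.eq_of_comap_eq hG hℓM
  -- `Kb(J) ⊆ F_N`
  have hT : Kb⟮Jel (Concrete.jqModC_mem Kb M)⟯ ≤ (IntermediateField.inclusion hle).fieldRange := by
    rw [adjoin_simple_le_iff]
    exact ⟨⟨jqModC Kb, Concrete.jqModC_mem Kb N⟩, Subtype.ext rfl⟩
  ext c
  rw [ValuationSubring.mem_comap, ValuationSubring.mem_comap]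
  obtain ⟨c', hc'⟩ : (c : ↥(modularFunctionFieldBar M)) ∈
      (IntermediateField.inclusion hle).fieldRange := hT c.2
  have hc : algebraMap ↥Kb⟮Jel (Concrete.jqModC_mem Kb M)⟯ ↥(modularFunctionFieldBar M) c =
      (IntermediateField.inclusion hle).toRingHom c' := hc'.symm
  rw [hc, ← ValuationSubring.mem_comap, ← ValuationSubring.mem_comap, h]

/-- **Block 1**: the Kummer form `(*)` descends from level `M` to every level `N ∣ M`
(`ℓ ∤ M`, `ℓ ∤ m`). -/
theorem star_of_star_mul (hNM : N ∣ M) {ℓ : ℕ} [Fact ℓ.Prime] (hℓM : ¬ ℓ ∣ M)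
    (A : ValuationSubring Kb) (hA : A.LiesOverPrime ℓ) {m : ℕ} (hm : ¬ ℓ ∣ m)
    (hstar : Trans.Star A M m) : Trans.Star A N m := by
  have hℓN : ¬ ℓ ∣ N := fun h => hℓM (h.trans hNM)
  have : CharP (IsLocalRing.ResidueField A) ℓ := Trans.LiesOver.charP_residueField hA
  have hle : modularFunctionFieldBar N ≤ modularFunctionFieldBar M :=
    StarMulAux.bar_le_of_dvd hNM
  have hcomap : (ModularH.gaussVS A hℓM).comap (IntermediateField.inclusion hle).toRingHom =
      ModularH.gaussVS A hℓN := comap_gaussVS hℓM hℓN A hle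
  have hGN := ModularH.isGaussRed A hℓN
  refine StarMul.star_descent hle (full_degeneracyC_le _ hNM)
    (StarMulAux.isIntegral_inclusion hle) (ModularH.gaussVS A hℓN) (ModularH.gaussVS A hℓM)
    hcomap ?_ (ModularH.gaussRes A hℓN) ?_ ?_ ?_ ?_
    (StarMulAux.natCast_residue_ne_zero (Fact.out : ℓ.Prime) hA hm) hstar
  · -- uniqueness
    intro O'' h
    exact eq_of_comap_inclusion_eq hle (ModularH.isGaussRed A hℓM) hℓM O'' (h.trans hcomap.symm)
  · -- kernel of the residue map
    intro x
    exact (resMap_eq_zero_iff (ModularH.scalable A hℓN) x).trans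
      (ValuationSubring.valuation_lt_one_iff _ x)
  · -- integral series lie in the Gauss subring
    intro y h
    exact hGN.mem_of_integral y h
  · intro y h
    exact hGN.map_integral y h _
  · -- range
    intro g hg
    exact Concrete.exists_map_eq_of_mem_full hGN hg

end Fermat.Agent.S18.Descent.StarMulG
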